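import Mathlib

/-!
# The odd division polynomials of a semistable Weierstrass equation do not vanish identically

Over a field with `2 ≠ 0`, if `c₄ ≠ 0` or `Δ ≠ 0`, the cubic `Ψ₂Sq` has a simple root `x`, where
`Ψ₃` is then nonzero, and so all `preΨ' n` with `n` odd are nonzero at `x`.
-/

set_option autoImplicit false

namespace Fermat.Agent.EC.AtP

open Polynomial

section EDS

variable {R : Type*} [CommRing R] [IsDomain R]

/-- An auxiliary elliptic divisibility sequence with `b = 0`, `c ≠ 0` has nonzero odd terms. -/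
theorem preNormEDS'_zero_odd_ne_zero {c d : R} (hc : c ≠ 0) :
    ∀ n : ℕ, Odd n → preNormEDS' 0 c d n ≠ 0 := by
  intro n
  induction n using Nat.strong_induction_on with
  | _ n ih =>
    intro hn
    obtain ⟨k, rfl⟩ := hn
    match k with
    | 0 => simp
    | 1 => simpa using hc
    | m + 2 =>
      rw [preNormEDS'_odd]
      rcases Nat.even_or_odd m with hm | hm
      · rw [if_pos hm, if_pos hm, mul_zero, zero_sub, mul_one, neg_ne_zero]
        refine mul_ne_zero (ih _ (by omega) hm.add_one) (pow_ne_zero _ (ih _ (by omega) ?_))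
        exact hm.add_odd (by decide)
      · rw [if_neg (Nat.not_even_iff_odd.mpr hm), if_neg (Nat.not_even_iff_odd.mpr hm), mul_zero,
          sub_zero, mul_one]
        refine mul_ne_zero (ih _ (by omega) ?_) (pow_ne_zero _ (ih _ (by omega) ?_))
        · exact hm.add_even (by decide)
        · exact hm.add_even (by decide)

end EDS

variable {k : Type*} [Field k]

/-- Over an algebraically closed field with `2 ≠ 0`, a semistable equation has a root of `Ψ₂Sq`
at which `Ψ₃` does not vanish. -/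
theorem exists_root_Ψ₂Sq_eval_Ψ₃_ne_zero [IsAlgClosed k] (W : WeierstrassCurve k)
    (h2 : (2 : k) ≠ 0) (hW : W.c₄ ≠ 0 ∨ W.Δ ≠ 0) :
    ∃ x : k, W.Ψ₂Sq.eval x = 0 ∧ W.Ψ₃.eval x ≠ 0 := by
  have h4 : (4 : k) ≠ 0 := by
    rw [show (4 : k) = 2 * 2 by norm_num]; exact mul_ne_zero h2 h2
  have h16 : (16 : k) ≠ 0 := by
    rw [show (16 : k) = 4 * 4 by norm_num]; exact mul_ne_zero h4 h4
  have hev : ∀ x, W.Ψ₂Sq.eval x = 4 * x ^ 3 + W.b₂ * x ^ 2 + 2 * W.b₄ * x + W.b₆ := by
    intro x; simp [WeierstrassCurve.Ψ₂Sq]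
  have key : ∀ x, 16 * W.Ψ₃.eval x =
      2 * W.Ψ₂Sq.eval x * (24 * x + 2 * W.b₂) - (12 * x ^ 2 + 2 * W.b₂ * x + 2 * W.b₄) ^ 2 := by
    intro x
    simp [WeierstrassCurve.Ψ₃, WeierstrassCurve.Ψ₂Sq]
    linear_combination 4 * W.b_relation
  suffices ∃ x, W.Ψ₂Sq.eval x = 0 ∧ 12 * x ^ 2 + 2 * W.b₂ * x + 2 * W.b₄ ≠ 0 by
    obtain ⟨x, hx, hx'⟩ := this
    refine ⟨x, hx, fun h3 => ?_⟩
    have := key x
    rw [h3, hx] at this
    exact hx' (pow_eq_zero_iff two_ne_zero |>.mp (by linear_combination this))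
  obtain ⟨r, hr⟩ : ∃ r, W.Ψ₂Sq.IsRoot r :=
    IsAlgClosed.exists_root _ <| by
      rw [degree_eq_natDegree (by
        intro h
        have := congr_arg (fun q : k[X] => q.coeff 3) h
        simp [WeierstrassCurve.Ψ₂Sq, h4] at this)]
      have : W.Ψ₂Sq.natDegree = 3 := by
        unfold WeierstrassCurve.Ψ₂Sq
        compute_degree!
      simp [this]
  rw [IsRoot] at hr
  by_cases hr' : 12 * r ^ 2 + 2 * W.b₂ * r + 2 * W.b₄ = 0
  swap
  · exact ⟨r, hr, hr'⟩
  rw [hev] at hr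
  obtain ⟨s, hs⟩ : ∃ s, 4 * s + (W.b₂ + 8 * r) = 0 :=
    ⟨-(W.b₂ + 8 * r) / 4, by field_simp; ring⟩
  refine ⟨s, ?_, ?_⟩
  · rw [hev]
    linear_combination (s - r) ^ 2 * hs + (s - r) * hr' + hr
  · intro hs'
    have hsr : (4 * (s - r)) ^ 2 = 0 := by
      linear_combination 4 * hs' - 4 * hr' - (8 * s - 8 * r) * hs
    have hb2 : W.b₂ = -12 * r := by
      linear_combination hs - (pow_eq_zero_iff two_ne_zero |>.mp hsr)
    have hb4 : W.b₄ = 6 * r ^ 2 :=
      mul_left_cancel₀ h2 (by linear_combination hr' - (2 * r) * hb2)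
    have hb6 : W.b₆ = -4 * r ^ 3 := by
      linear_combination hr - r ^ 2 * hb2 - 2 * r * hb4
    have hb8 : W.b₈ = 3 * r ^ 4 := mul_left_cancel₀ h4 <| by
      rw [W.b_relation, hb2, hb4, hb6]; ring
    rcases hW with h | h
    · exact h (by rw [WeierstrassCurve.c₄, hb2, hb4]; ring)
    · exact h (by rw [WeierstrassCurve.Δ, hb2, hb4, hb6, hb8]; ring)

/-- The odd division polynomials of a semistable equation over an algebraically closed field with
`2 ≠ 0` are nonzero. -/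
theorem preΨ'_ne_zero_of_semistable [IsAlgClosed k] (W : WeierstrassCurve k)
    (h2 : (2 : k) ≠ 0) (hW : W.c₄ ≠ 0 ∨ W.Δ ≠ 0) {n : ℕ} (hn : Odd n) : W.preΨ' n ≠ 0 := by
  obtain ⟨x, hx, hx3⟩ := exists_root_Ψ₂Sq_eval_Ψ₃_ne_zero W h2 hW
  intro h
  have : (W.preΨ' n).eval x = 0 := by rw [h, eval_zero]
  rw [WeierstrassCurve.preΨ', ← coe_evalRingHom, map_preNormEDS', map_pow,
    coe_evalRingHom, hx, zero_pow two_ne_zero] at this
  exact preNormEDS'_zero_odd_ne_zero hx3 n hn this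

/-- For an integral Weierstrass equation with semistable reduction at an odd prime `p`, some
coefficient of `preΨ' n` (`n` odd) is prime to `p`. -/
theorem exists_not_dvd_coeff_preΨ' (W : WeierstrassCurve ℤ) {p : ℕ} (hp : p.Prime) (hp2 : p ≠ 2)
    (hW : ¬ ((p : ℤ) ∣ W.c₄ ∧ (p : ℤ) ∣ W.Δ)) {n : ℕ} (hn : Odd n) :
    ∃ i, ¬ (p : ℤ) ∣ (W.preΨ' n).coeff i := by
  have : Fact p.Prime := ⟨hp⟩
  let k := AlgebraicClosure (ZMod p)
  by_contra hall
  simp only [not_exists, not_not] at hall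
  have hcast : ∀ z : ℤ, (z : k) = 0 ↔ (p : ℤ) ∣ z := fun z => CharP.intCast_eq_zero_iff k p z
  refine preΨ'_ne_zero_of_semistable (W.map (Int.castRingHom k)) ?_ ?_ hn ?_
  · intro h
    have h' : (p : ℤ) ∣ 2 := (hcast 2).mp (by exact_mod_cast h)
    exact hp2 ((Nat.prime_dvd_prime_iff_eq hp Nat.prime_two).mp (Int.natCast_dvd_natCast.mp h'))
  · simp only [WeierstrassCurve.map_c₄, WeierstrassCurve.map_Δ, eq_intCast, ne_eq, hcast]
    tauto
  · ext i
    simp [WeierstrassCurve.map_preΨ', hcast, hall i]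

end Fermat.Agent.EC.AtP
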