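import Fermat.Agent.EC.AtP.Semistable
import Fermat.Agent.EC.Multiplicative.Frey
import Fermat.Agent.EC.Multiplicative.Rational

/-!
# The Frey curve has no rational point of order `p`

At `2` the reduction is multiplicative with `v(Δ) = 2p·v₂(abc) - 8` prime to `p`.  A rational point
of order `p` cannot lie in `E0` (the reduced curve has at most two nonzero rational nonsingular
points), and outside `E0` its abscissa would have valuation in `(v(Δ) / p) ℤ`, not in `v(Δ) ℤ`,
relative to the node.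
-/

set_option autoImplicit false

namespace Fermat.Agent.EC.AtP

open WeierstrassCurve Fermat.Agent.Arith Fermat.Agent.EC.Reduction
open scoped WeierstrassCurve.Affine

variable (P : FreyPackage)

instance freyInt_isElliptic : (P.freyCurveInt.map (Int.castRingHom ℚ)).IsElliptic :=
  ⟨isUnit_iff_ne_zero.mpr (by
    rw [map_Δ, eq_intCast]; exact Int.cast_ne_zero.mpr (Frey.Δ_ne_zero P))⟩

variable {P}

/-- The coefficients of the Frey equation over `QBar`. -/
theorem freyQBar_coeffs :
    ((P.freyCurveInt.map (Int.castRingHom ℚ))⁄(AlgebraicClosure ℚ)).toAffine.a₁ = 1 ∧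
    ((P.freyCurveInt.map (Int.castRingHom ℚ))⁄(AlgebraicClosure ℚ)).toAffine.a₃ = 0 ∧
    ((P.freyCurveInt.map (Int.castRingHom ℚ))⁄(AlgebraicClosure ℚ)).toAffine.a₆ = 0 ∧
    ((P.freyCurveInt.map (Int.castRingHom ℚ))⁄(AlgebraicClosure ℚ)).toAffine.a₂
      = (P.freyCurveInt.a₂ : QBar) ∧
    ((P.freyCurveInt.map (Int.castRingHom ℚ))⁄(AlgebraicClosure ℚ)).toAffine.a₄
      = (P.freyCurveInt.a₄ : QBar) := by
  refine ⟨?_, ?_, ?_, ?_, ?_⟩
  · show algebraMap ℚ QBar ((Int.castRingHom ℚ) P.freyCurveInt.a₁) = 1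
    simp [FreyPackage.freyCurveInt]
  · show algebraMap ℚ QBar ((Int.castRingHom ℚ) P.freyCurveInt.a₃) = 0
    simp [FreyPackage.freyCurveInt]
  · show algebraMap ℚ QBar ((Int.castRingHom ℚ) P.freyCurveInt.a₆) = 0
    simp [FreyPackage.freyCurveInt]
  · show algebraMap ℚ QBar ((Int.castRingHom ℚ) P.freyCurveInt.a₂) = _
    simp
  · show algebraMap ℚ QBar ((Int.castRingHom ℚ) P.freyCurveInt.a₄) = _
    simp

/-- Inertia moves points of the Frey curve within their components, at every place. -/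
theorem frey_inertiaPreservesComponent (P : FreyPackage) :
    InertiaPreservesComponent P.freyCurveInt :=
  inertiaPreservesComponent_of_semistable _ (Frey.Δ_ne_zero P) fun q hq h => by
    by_cases hd : (q : ℤ) ∣ P.a * P.b * P.c
    · exact Frey.not_dvd_c₄ P hq hd h.1
    · exact Frey.not_dvd_Δ P hq hd h.2

section RatTwo

variable {A : ValuationSubring QBar}

/-- The residue of a `2`-integral rational number is `0` or `1`. -/
theorem res_ratCast_two (hA : A.LiesOverPrime 2) {r : ℚ} (h : (r : QBar) ∈ A) :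
    res A (r : QBar) = 0 ∨ res A (r : QBar) = 1 := by
  have hd : ¬ 2 ∣ r.den := (ratCast_mem_iff hA Nat.prime_two r).mp h
  have hdA : (r.den : QBar) ∈ A := natCast_mem A _
  have e : (r : QBar) * (r.den : QBar) = (r.num : QBar) := by
    rw [Rat.cast_def, div_mul_cancel₀ _ (Nat.cast_ne_zero.mpr r.den_nz)]
  have hden : res A (r.den : QBar) = 1 := by
    obtain ⟨k, hk⟩ := Nat.odd_iff.mpr (Nat.two_dvd_ne_zero.mp hd)
    rw [hk]; push_cast
    rw [res_add (mul_mem (ofNat_mem A 2) (natCast_mem A k)) (one_mem A), res_one,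
      res_eq_zero (nonunits_mul_right (y := (k : QBar)) (by simpa using! hA) (natCast_mem A k)),
      zero_add]
  have := congrArg (res A) e
  rw [res_mul h hdA, hden, mul_one] at this
  rw [this]
  rcases Int.even_or_odd r.num with ⟨k, hk⟩ | ⟨k, hk⟩
  · left; rw [hk]; push_cast
    rw [← two_mul]; exact res_eq_zero (nonunits_mul_right hA (intCast_mem A k))
  · right; rw [hk]; push_cast
    rw [res_add (mul_mem (ofNat_mem A 2) (intCast_mem A k)) (one_mem A), res_one,
      res_eq_zero (nonunits_mul_right (y := (k : QBar)) (by simpa using! hA) (intCast_mem A k)),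
      zero_add]

end RatTwo

theorem eq_ratCast_of_fixed {z : QBar} (h : ∀ σ : GQ, σ z = z) : ∃ r : ℚ, z = (r : QBar) := by
  obtain ⟨r, hr⟩ := IntermediateField.mem_bot.mp ((InfiniteGalois.mem_bot_iff_fixed z).mpr h)
  exact ⟨r, hr.symm.trans (eq_ratCast (algebraMap ℚ QBar) r)⟩

theorem exists_rat_coords {Q : PointQBar P.freyCurveInt} (hQ : Q ≠ 0)
    (hfix : ∀ σ : GQ, σ • Q = Q) :
    ∃ (x y : ℚ) (h : ((P.freyCurveInt.map (Int.castRingHom ℚ))⁄(AlgebraicClosure ℚ)).toAffine.Nonsingular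
      (x : QBar) (y : QBar)), Q = Affine.Point.some (x : QBar) (y : QBar) h := by
  match Q with
  | .zero => exact absurd rfl hQ
  | .some x y h =>
    have key : ∀ σ : GQ, σ x = x ∧ σ y = y := fun σ => by
      have := hfix σ
      rw [Affine.Point.algEquiv_smul_def, Affine.Point.map_some] at this
      simpa using Affine.Point.some.inj this
    obtain ⟨r, rfl⟩ := eq_ratCast_of_fixed fun σ => (key σ).1
    obtain ⟨s, rfl⟩ := eq_ratCast_of_fixed fun σ => (key σ).2
    exact ⟨r, s, h, rfl⟩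

/-- The Frey equation over `QBar`. -/
noncomputable abbrev freyWL (P : FreyPackage) : Affine QBar :=
  ((P.freyCurveInt.map (Int.castRingHom ℚ))⁄(AlgebraicClosure ℚ)).toAffine

theorem two_dvd_b (P : FreyPackage) : ((2 : ℕ) : ℤ) ∣ P.b :=
  (ZMod.intCast_zmod_eq_zero_iff_dvd P.b 2).mp P.hb2

variable {A : ValuationSubring QBar}

theorem frey_red_coeffs_two (hA : A.LiesOverPrime 2) :
    (redCurve P.freyCurveInt A).a₃ = 0 ∧ (redCurve P.freyCurveInt A).a₄ = 0 ∧
      (redCurve P.freyCurveInt A).a₆ = 0 := by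
  obtain ⟨-, c3, c6, -, c4⟩ := freyQBar_coeffs (P := P)
  have h := reducesTo_qbar (W := P.freyCurveInt) A
  refine ⟨by rw [← h.res_a₃, c3, res_zero], ?_, by rw [← h.res_a₆, c6, res_zero]⟩
  rw [← h.res_a₄, c4]
  refine res_eq_zero ((intCast_mem_nonunits_iff hA Nat.prime_two _).mpr ?_)
  obtain ⟨k, hk⟩ := Frey.two_pow_dvd_pow_b P
  have h16 := Frey.sixteen_mul_a₄ P
  rw [hk] at h16
  exact ⟨-(P.a ^ P.p) * k,
    mul_left_cancel₀ (show (16 : ℤ) ≠ 0 by norm_num) (by push_cast; linear_combination h16)⟩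

theorem nsmul_sub_nsmul {G : Type*} [AddCommGroup G] (Q : G) {i j : ℕ} (h : i ≤ j) :
    j • Q - i • Q = (j - i) • Q := by
  rw [sub_eq_iff_eq_add, ← add_nsmul, Nat.sub_add_cancel h]

theorem nsmul_ne_zero_of_prime {G : Type*} [AddCommGroup G] {Q : G} {p : ℕ} (hp : p.Prime)
    (hpQ : p • Q = 0) (hQ : Q ≠ 0) {k : ℕ} (hk : 0 < k) (hkp : k < p) : k • Q ≠ 0 := fun hc => by
  have := Fact.mk hp
  have := Nat.le_of_dvd hk
    (addOrderOf_eq_prime hpQ hQ ▸ addOrderOf_dvd_of_nsmul_eq_zero hc)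
  omega

theorem nsmul_fixed {Q : PointQBar P.freyCurveInt} (hfix : ∀ σ : GQ, σ • Q = Q) (k : ℕ)
    (σ : GQ) : σ • (k • Q) = k • Q := by
  have : σ • (k • Q) = k • (σ • Q) := map_nsmul (Affine.Point.map (σ : GQ).toAlgHom) k Q
  rw [this, hfix]

/-- At `2` a rational point of order `p` of the Frey curve is off `E0`: the reduced curve has at
most two nonzero rational nonsingular points. -/
theorem frey_not_inE0_two (hA : A.LiesOverPrime 2) {Q : PointQBar P.freyCurveInt}
    (hpQ : P.p • Q = 0) (hfix : ∀ σ : GQ, σ • Q = Q) (hQ0 : Q ≠ 0) :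
    ¬ InE0 A (redCurve P.freyCurveInt A) Q := by
  classical
  intro hQE0
  have h := reducesTo_qbar (W := P.freyCurveInt) A
  obtain ⟨v3, v4, v6⟩ := frey_red_coeffs_two (P := P) hA
  have hp5 := P.hp5
  have hE1 : ∀ k, 0 < k → k < P.p → ¬ InE1 A (k • Q) := fun k hk hkp hin =>
    nsmul_ne_zero_of_prime P.pp hpQ hQ0 hk hkp
      (e1TorsionFree P.p P.pp 2 Nat.prime_two (by omega) A hA _ hin
        (by rw [← mul_nsmul, mul_comm, mul_nsmul, hpQ, nsmul_zero]))
  have hE0k : ∀ k, InE0 A (redCurve P.freyCurveInt A) (k • Q) := fun k =>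
    (h.mem_E0).mp (h.E0.nsmul_mem ((h.mem_E0).mpr hQE0) k)
  have hval : ∀ k, 0 < k → k < P.p → ∃ (x y : QBar) (hn : (freyWL P).Nonsingular x y) (b : Bool),
      k • Q = Affine.Point.some x y hn ∧ x ∈ A ∧ res A x = 1 ∧
        res A y = (if b then 1 else 0) ∧
        (redCurve P.freyCurveInt A).Nonsingular (res A x) (res A y) := by
    intro k hk hkp
    obtain ⟨x, y, hn, e⟩ := exists_rat_coords (nsmul_ne_zero_of_prime P.pp hpQ hQ0 hk hkp)
      (nsmul_fixed hfix k)
    have hxA : (x : QBar) ∈ A := by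
      by_contra hx
      exact hE1 k hk hkp (e ▸ hx)
    have hns' : (redCurve P.freyCurveInt A).Nonsingular (res A (x : QBar)) (res A (y : QBar)) :=
      ((inE0_some hn).mp (e ▸ hE0k k)).resolve_left (not_not_intro hxA)
    have hyA : (y : QBar) ∈ A := h.y_mem hn.1 hxA
    refine ⟨x, y, hn, decide (res A (y : QBar) = 1), e, hxA, ?_, ?_, hns'⟩
    · rcases res_ratCast_two hA hxA with hx | hx
      · exfalso
        rw [hx] at hns'
        obtain ⟨he, hsing⟩ := (Affine.nonsingular_iff _ _).mp hns'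
        rw [Affine.equation_iff, v3, v6] at he
        have hy0 : res A (y : QBar) = 0 :=
          (pow_eq_zero_iff two_ne_zero).mp (by linear_combination he)
        rw [hy0, v4, v3] at hsing
        simp at hsing
      · exact hx
    · rcases res_ratCast_two hA hyA with hy | hy <;> simp [hy]
  obtain ⟨x1, y1, n1, b1, e1, a1, r1, s1, m1⟩ := hval 1 one_pos (by omega)
  obtain ⟨x2, y2, n2, b2, e2, a2, r2, s2, m2⟩ := hval 2 two_pos (by omega)
  obtain ⟨x3, y3, n3, b3, e3, a3, r3, s3, m3⟩ := hval 3 (by omega) (by omega)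
  have hsame : ∀ i j : ℕ, i < j → j ≤ 3 →
      redFun A (redCurve P.freyCurveInt A) (j • Q) =
        redFun A (redCurve P.freyCurveInt A) (i • Q) → False := by
    intro i j hij hj heq
    have hmem := h.sub_mem_E1 (hE0k j) (hE0k i) heq
    rw [nsmul_sub_nsmul Q hij.le] at hmem
    exact hE1 (j - i) (by omega) (by omega) ((h.mem_E1).mp hmem)
  have hred : ∀ {x y x' y' : QBar} (n : (freyWL P).Nonsingular x y)
      (n' : (freyWL P).Nonsingular x' y'),
      x ∈ A → x' ∈ A → (redCurve P.freyCurveInt A).Nonsingular (res A x) (res A y) →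
      (redCurve P.freyCurveInt A).Nonsingular (res A x') (res A y') →
      res A x' = res A x → res A y' = res A y →
      redFun A (redCurve P.freyCurveInt A)
          (Affine.Point.some x' y' n' : PointQBar P.freyCurveInt) =
        redFun A (redCurve P.freyCurveInt A)
          (Affine.Point.some x y n : PointQBar P.freyCurveInt) := by
    intro x y x' y' n n' hx hx' m m' ex ey
    rw [redFun_some n' hx' m', redFun_some n hx m]
    simp only [ex, ey]
  rcases (show b2 = b1 ∨ b3 = b1 ∨ b3 = b2 by cases b1 <;> cases b2 <;> cases b3 <;> simp) with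
    hb | hb | hb
  · exact hsame 1 2 (by omega) (by omega)
      (by rw [e1, e2]; exact hred n1 n2 a1 a2 m1 m2 (r2.trans r1.symm) (by rw [s2, s1, hb]))
  · exact hsame 1 3 (by omega) le_rfl
      (by rw [e1, e3]; exact hred n1 n3 a1 a3 m1 m3 (r3.trans r1.symm) (by rw [s3, s1, hb]))
  · exact hsame 2 3 (by omega) le_rfl
      (by rw [e2, e3]; exact hred n2 n3 a2 a3 m2 m3 (r3.trans r2.symm) (by rw [s3, s2, hb]))

/-- The Frey curve has no rational point of order `p`. -/
theorem frey_no_rational_torsion (P : FreyPackage) (Q : PointQBar P.freyCurveInt)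
    (hpQ : P.p • Q = 0) (hfix : ∀ σ : GQ, σ • Q = Q) : Q = 0 := by
  classical
  by_contra hQ0
  obtain ⟨A, hA⟩ := exists_liesOverPrime Nat.prime_two
  have h2 : ((2 : ℕ) : ℤ) ∣ P.a * P.b * P.c :=
    dvd_mul_of_dvd_left (dvd_mul_of_dvd_right (two_dvd_b P) _) _
  have hv := Multiplicative.Frey.padicValInt_Δ_add P Nat.prime_two
  rw [show padicValInt 2 (2 : ℤ) = 1 from padicValInt.self one_lt_two] at hv
  have habc : 0 < padicValInt 2 (P.a * P.b * P.c) := Nat.pos_of_ne_zero fun h0 => by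
    rcases padicValInt.eq_zero_iff.mp h0 with h | h | h
    · norm_num at h
    · exact mul_ne_zero (mul_ne_zero P.ha0 P.hb0) P.hc0 h
    · exact h h2
  have hp5 := P.hp5
  have hΔ : ((2 : ℕ) : ℤ) ∣ P.freyCurveInt.Δ := by
    by_contra h0
    rw [padicValInt.eq_zero_of_not_dvd h0] at hv
    have := Nat.mul_le_mul_left (2 * P.p) habc
    omega
  have hnv : ¬ P.p ∣ padicValInt 2 P.freyCurveInt.Δ := fun hd => by
    have h8 : P.p ∣ 2 ^ 3 :=
      (Nat.dvd_add_right hd).mp (hv.symm ▸ dvd_mul_of_dvd_left (dvd_mul_left _ 2) _)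
    have := (Nat.prime_dvd_prime_iff_eq P.pp Nat.prime_two).mp (P.pp.dvd_of_dvd_pow h8)
    omega
  obtain ⟨x, y, hn, rfl⟩ := exists_rat_coords hQ0 hfix
  refine frey_not_inE0_two hA hpQ hfix hQ0 (Multiplicative.inE0_of_nsmul_eq_zero hA Nat.prime_two
    (Frey.Δ_ne_zero P) hΔ (Frey.not_dvd_c₄ P Nat.prime_two h2) P.pp P.hp_odd hnv
    (fun r hr k hk => ?_) hpQ)
  refine Multiplicative.dvd_of_valuation_ratCast_pow hA Nat.prime_two (z := x - r) ?_
    (by push_cast; exact hk)
  exact fun h0 => hr (by rw [sub_eq_zero.mp h0]; simp)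

end Fermat.Agent.EC.AtP
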