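import Fermat.Agent.EC.AtP.Inertia
import Fermat.Agent.EC.Multiplicative.Int

/-!
# Semistable curves: inertia, components and the kernel of reduction
-/

set_option autoImplicit false

namespace Fermat.Agent.EC.AtP

open WeierstrassCurve Fermat.Agent.Arith Fermat.Agent.EC.Reduction
open scoped WeierstrassCurve.Affine

/-- On a semistable curve, inertia moves points within their components. -/
theorem inertiaPreservesComponent_of_semistable (W : WeierstrassCurve ℤ) (hΔ : W.Δ ≠ 0)
    (hss : ∀ q : ℕ, q.Prime → ¬ ((q : ℤ) ∣ W.c₄ ∧ (q : ℤ) ∣ W.Δ)) :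
    InertiaPreservesComponent W := fun q hq _ hA _ hσ P =>
  Fermat.Agent.EC.Multiplicative.inE0_smul_sub_of_semistable hA hq hΔ (hss q hq) hσ P

/-- The kernel of reduction has no torsion prime to the residue characteristic. -/
theorem e1TorsionFree {W : WeierstrassCurve ℤ} (p : ℕ) (hp : p.Prime) : E1TorsionFree W p := by
  classical
  intro q hq hqp A hA P hP hpP
  exact (reducesTo_qbar (W := W) A).eq_zero_of_nsmul_eq_zero
    (valuation_natCast_eq_one hA hq (fun hd => hqp ((Nat.prime_dvd_prime_iff_eq hq hp).mp hd)))
    hP hpP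

end Fermat.Agent.EC.AtP
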